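/-
Project S35 (SS2), cell [DESC-φ] (helper22): THE INPUT SEAMS OF THE DESCENT.

`ss2_dp_CoreNF N' q hq2 hqN'` is `s35_CoreNF N' q hq2 hqN'` (S35/SeamsNF.lean) VERBATIM plus ONE
clause: the finite set `T` chosen by the provider is fixed by the inertia group `I_A` (otherwise
no level `L1 ⊇ T` is unramified at `A`, the seam is vacuous and the descent cannot use it).
`ss2_dp_CoreNFH` is the Hesse twin (`s35h_CoreNF` + the same clause).
Prefix `ss2_dp_`.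
-/
import Mathlib
import Fermat.Agent.S35.SeamsNF
import Fermat.Agent.S35.SeamsHesNF

set_option autoImplicit false
set_option linter.unusedSectionVars false
set_option linter.unusedVariables false

noncomputable section

namespace Fermat.Agent.SS2

open ModularCurve AlgebraicCurve IsLocalRing Fermat.Agent.JT3 Fermat.Agent.S24 Fermat.Agent.SS
  Fermat.Agent.S35

local notation "GQ" => (AlgebraicClosure ℚ ≃ₐ[ℚ] AlgebraicClosure ℚ)
local notation "Qb" => AlgebraicClosure ℚ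

variable (N' q : ℕ) [NeZero N'] [NeZero q] [hq : Fact q.Prime]

/-- **The core over the unramified number fields, Legendre cover, with `T` inertia-fixed.** -/
def ss2_dp_CoreNF (hq2 : ¬ 2 ∣ q) (hqN' : ¬ q ∣ N') : Prop :=
  ∀ A : ValuationSubring Qb, A.LiesOverPrime q → ∀ φ : GQ, A.IsFrobeniusAt φ q →
    ∃ d : ℕ, d ≠ 0 ∧ ∃ T : Finset Qb, (∀ t ∈ T, ∀ s ∈ A.inertiaSubgroupIn ℚ, s t = t) ∧
      ∀ L1 : IntermediateField ℚ Qb, FiniteDimensional ℚ L1 → (↑T : Set Qb) ⊆ L1 →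
        Irreducible ((q : ℕ) : ↥(A.comap (algebraMap ↥L1 Qb))) →
        ∀ φ1 : ↥L1 ≃+* ↥L1, (∀ x : ↥L1, ((φ1 x : ↥L1) : Qb) = φ (x : Qb)) →
          ∀ m : ℕ, ¬ q ∣ m → (∃ ζ : ↥L1, IsPrimitiveRoot ζ m) →
            s35_CoreAt (L := ↥L1) N' q hq2 hqN' φ1 m d

/-- **The core over the unramified number fields, Hesse cover, with `T` inertia-fixed.** -/
def ss2_dp_CoreNFH (hq3 : ¬ 3 ∣ q) (hqN' : ¬ q ∣ N') : Prop :=
  ∀ A : ValuationSubring Qb, A.LiesOverPrime q → ∀ φ : GQ, A.IsFrobeniusAt φ q →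
    ∃ d : ℕ, d ≠ 0 ∧ ∃ T : Finset Qb, (∀ t ∈ T, ∀ s ∈ A.inertiaSubgroupIn ℚ, s t = t) ∧
      ∀ L1 : IntermediateField ℚ Qb, FiniteDimensional ℚ L1 → (↑T : Set Qb) ⊆ L1 →
        Irreducible ((q : ℕ) : ↥(A.comap (algebraMap ↥L1 Qb))) →
        ∀ φ1 : ↥L1 ≃+* ↥L1, (∀ x : ↥L1, ((φ1 x : ↥L1) : Qb) = φ (x : Qb)) →
          ∀ m : ℕ, ¬ q ∣ m → (∃ ζ : ↥L1, IsPrimitiveRoot ζ m) →
            s35h_CoreAt (L := ↥L1) (three_ne_zero : (3 : ↥L1) ≠ 0) N' q hq3 hqN' φ1 m d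

end Fermat.Agent.SS2
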