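/-
Project S35 (SS2), cell [DESC-φ] (helper22), part (N1): THE NORMS ALONG THE TWO DEGENERACY MAPS
COMMUTE WITH THE EXTENSION OF CONSTANTS `L1 → Q̄`.

* `ss2_dp_normAlong_bc`     : base change of the norm along algebra homomorphisms over TWO different
                              base fields (two-base twin of `s35pe_normAlong_baseChange`);
* `ss2_dp_finrankAlong_alpha/beta` : `[F_{N' q}(L) : α F_{N'}(L)] = q + 1 = [F_{N' q}(L) : β F_{N'}(L)]`
                              over every field `L` of characteristic zero (inside `Q̄`);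
* `ss2_dp_norm_bc_alpha/beta` : `Norm_α (bc g) = bc (Norm_α g)`, `Norm_β (bc g) = bc (Norm_β g)` for
                              `g ∈ F_{N' q}(L1)`, `bc = dsc_bcHom L1 Q̄`.
Prefix `ss2_dp_`.
-/
import Mathlib
import Fermat.Agent.S35.PEquiv.NormAlong
import Fermat.Agent.SS.Model.ALE
import Fermat.Agent.JT3.Descent.FieldOfDef
import Fermat.Prelude.Def_ModularCurve_HeckeOperator

set_option autoImplicit false
set_option linter.unusedSectionVars false
set_option linter.unusedVariables false
set_option linter.style.haveILetI false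

noncomputable section

namespace Fermat.Agent.SS2

open ModularCurve AlgebraicCurve Module Fermat.Agent.JT3 Fermat.Agent.S24 Fermat.Agent.SS
  Fermat.Agent.S35

local notation "Qb" => AlgebraicClosure ℚ

/-- **base change of the norm along algebra homomorphisms**, two base fields. -/
theorem ss2_dp_normAlong_bc {K K' F E F' E' : Type*} [Field K] [Field K'] [Field F] [Field E]
    [Field F'] [Field E'] [Algebra K F] [Algebra K E] [Algebra K' F'] [Algebra K' E']
    (γ₀ : F →ₐ[K] E) (γ₁ : F' →ₐ[K'] E') (b₀ : F →+* F') (b₁ : E →+* E')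
    (hcomm : ∀ x, b₁ (γ₀ x) = γ₁ (b₀ x))
    (hpos : 0 < finrankAlong K γ₀) (hdeg : finrankAlong K' γ₁ = finrankAlong K γ₀)
    (hgen : ∀ S : Subfield E', (∀ x, γ₁ x ∈ S) → (∀ y, b₁ y ∈ S) → S = ⊤) (g : E) :
    s35pe_normAlong γ₁ (b₁ g) = b₀ (s35pe_normAlong γ₀ g) := by
  letI i0 := algebraAlong γ₀
  letI i1 := algebraAlong γ₁
  haveI hf0 : FiniteDimensional F E := Module.finite_of_finrank_pos hpos
  haveI hf1 : FiniteDimensional F' E' := Module.finite_of_finrank_pos (by
    have : finrank F' E' = finrank F E := hdeg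
    rw [this]; exact hpos)
  refine s35pe_norm_baseChange b₀ b₁ hcomm hdeg ?_ g
  have halg : Algebra.IsAlgebraic F' E' := Algebra.IsAlgebraic.of_finite F' E'
  set A : Subalgebra F' E' := Algebra.adjoin F' (Set.range b₁) with hA
  set I : IntermediateField F' E' := subalgebraEquivIntermediateField A with hI
  have hIA : ∀ x, x ∈ I ↔ x ∈ A := fun x => by
    rw [hI, mem_subalgebraEquivIntermediateField]
  have h := hgen I.toSubfield (fun x => I.algebraMap_mem x)
    (fun y => (hIA _).mpr (Algebra.subset_adjoin ⟨y, rfl⟩))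
  rw [eq_top_iff]
  intro x _
  have hx : x ∈ I.toSubfield := by rw [h]; trivial
  exact (hIA x).mp hx

section Degrees

variable (L : Type*) [Field L] [Algebra ℚ L] [Algebra L Qb] (N' q : ℕ) [NeZero N'] [NeZero q]

theorem ss2_dp_beta_eq_res :
    heckeBetaBar L N' q = s35pe_res (qExpandAlgHomC L q)
      (laurentBaseChange L (modularFunctionFieldFull N'))
      (laurentBaseChange L (modularFunctionFieldFull (N' * q)))
      (fun x hx => show qExpandAlgHomC L q x ∈ _ from (heckeBetaBar L N' q ⟨x, hx⟩).2) :=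
  AlgHom.ext fun _ => Subtype.ext rfl

theorem ss2_dp_finrankAlong_alpha (hq : q.Prime) (hqN' : ¬ q ∣ N') :
    finrankAlong L (heckeAlphaBar L N' q) = q + 1 := by
  have _ : CharZero L := algebraRat.charZero L
  have h := ssm_al_relfinrank L N' q hq hqN'
  have e1 := lg_F_eq_laurentBaseChange L N'
  have e2 := lg_F_eq_laurentBaseChange L (N' * q)
  rw [lg_F] at e1 e2
  rw [e1, e2] at h
  have hle : laurentBaseChange L (modularFunctionFieldFull N') ≤
      laurentBaseChange L (modularFunctionFieldFull (N' * q)) := by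
    rw [← e1, ← e2]
    exact full_degeneracyC_le L (dvd_mul_right N' q)
  rw [heckeAlphaBar_eq_inclusion N' q hle, s35pe_finrankAlong_inclusion, h]

theorem ss2_dp_finrankAlong_beta (hq : q.Prime) (hqN' : ¬ q ∣ N') :
    finrankAlong L (heckeBetaBar L N' q) = q + 1 := by
  have _ : CharZero L := algebraRat.charZero L
  have h := ssm_al_relfinrank_beta L N' q hq hqN'
  have e1 := lg_F_eq_laurentBaseChange L N'
  have e2 := lg_F_eq_laurentBaseChange L (N' * q)
  rw [e1, e2] at h
  rw [ss2_dp_beta_eq_res, s35pe_finrankAlong_res, h]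

end Degrees

section BC

attribute [local instance] dsc_bcAlgebra dsc_bcAlgebra'

variable (L1 : Type) [Field L1] [Algebra ℚ L1] [Algebra L1 Qb] [IsScalarTower ℚ L1 Qb]
  (N' q : ℕ) [NeZero N'] [NeZero q]

/-- a subfield of `F_Q̄` containing the constants and the image of `F_{L1}` is everything. -/
theorem ss2_dp_bc_gen (F₀ : IntermediateField ℚ (LaurentSeries ℚ))
    (S : Subfield (laurentBaseChange Qb F₀))
    (hc : ∀ c : Qb, algebraMap Qb (laurentBaseChange Qb F₀) c ∈ S)
    (hb : ∀ y : laurentBaseChange L1 F₀, dsc_bcHom L1 Qb F₀ y ∈ S) : S = ⊤ := by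
  rw [eq_top_iff]
  intro y _
  have h := dsc_bc_mem_closure L1 Qb F₀ y
  have hle : Subfield.closure
      (Set.range (algebraMap (laurentBaseChange L1 F₀) (laurentBaseChange Qb F₀)) ∪
        Set.range (algebraMap Qb (laurentBaseChange Qb F₀))) ≤ S := by
    rw [Subfield.closure_le]
    rintro z (⟨a, rfl⟩ | ⟨c, rfl⟩)
    · exact hb a
    · exact hc c
  exact hle h

/-- **(N1), `α`**: the norm along the inclusion commutes with the extension of constants. -/
theorem ss2_dp_norm_bc_alpha (hq : q.Prime) (hqN' : ¬ q ∣ N')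
    (g : laurentBaseChange L1 (modularFunctionFieldFull (N' * q))) :
    s35pe_normAlong (heckeAlphaBar Qb N' q)
        (dsc_bcHom L1 Qb (modularFunctionFieldFull (N' * q)) g) =
      dsc_bcHom L1 Qb (modularFunctionFieldFull N')
        (s35pe_normAlong (heckeAlphaBar L1 N' q) g) := by
  have _ : CharZero L1 := algebraRat.charZero L1
  refine ss2_dp_normAlong_bc (heckeAlphaBar L1 N' q) (heckeAlphaBar Qb N' q)
    (dsc_bcHom L1 Qb (modularFunctionFieldFull N'))
    (dsc_bcHom L1 Qb (modularFunctionFieldFull (N' * q))) (fun x => Subtype.ext ?_) ?_ ?_ ?_ g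
  · rw [dsc_bcHom_coe, coe_heckeAlphaBar, coe_heckeAlphaBar, dsc_bcHom_coe]
  · rw [ss2_dp_finrankAlong_alpha L1 N' q hq hqN']; exact Nat.succ_pos q
  · rw [ss2_dp_finrankAlong_alpha L1 N' q hq hqN', ss2_dp_finrankAlong_alpha Qb N' q hq hqN']
  · intro S h1 h2
    refine ss2_dp_bc_gen L1 _ S (fun c => ?_) h2
    have := h1 (algebraMap Qb _ c)
    rwa [AlgHom.commutes] at this

/-- **(N1), `β`**: the norm along `X ↦ X^q` commutes with the extension of constants. -/
theorem ss2_dp_norm_bc_beta (hq : q.Prime) (hqN' : ¬ q ∣ N')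
    (g : laurentBaseChange L1 (modularFunctionFieldFull (N' * q))) :
    s35pe_normAlong (heckeBetaBar Qb N' q)
        (dsc_bcHom L1 Qb (modularFunctionFieldFull (N' * q)) g) =
      dsc_bcHom L1 Qb (modularFunctionFieldFull N')
        (s35pe_normAlong (heckeBetaBar L1 N' q) g) := by
  have _ : CharZero L1 := algebraRat.charZero L1
  refine ss2_dp_normAlong_bc (heckeBetaBar L1 N' q) (heckeBetaBar Qb N' q)
    (dsc_bcHom L1 Qb (modularFunctionFieldFull N'))
    (dsc_bcHom L1 Qb (modularFunctionFieldFull (N' * q))) (fun x => Subtype.ext ?_) ?_ ?_ ?_ g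
  · rw [dsc_bcHom_coe, coe_heckeBetaBar, coe_heckeBetaBar, dsc_bcHom_coe, dsc_cm, coeffMap_qExpand]
  · rw [ss2_dp_finrankAlong_beta L1 N' q hq hqN']; exact Nat.succ_pos q
  · rw [ss2_dp_finrankAlong_beta L1 N' q hq hqN', ss2_dp_finrankAlong_beta Qb N' q hq hqN']
  · intro S h1 h2
    refine ss2_dp_bc_gen L1 _ S (fun c => ?_) h2
    have := h1 (algebraMap Qb _ c)
    rwa [AlgHom.commutes] at this

end BC

end Fermat.Agent.SS2
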