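/-
Project S35 (SS2), cell [DESC-φ] (helper22), part (N2), Legendre cover: THE NORMS OF THE COVER
`E = lg_E L (N' q) ⊇ E' = lg_E L N'` (along the inclusion and along the Atkin–Lehner involution `W`)
OF A FUNCTION PULLED BACK FROM `F_{N' q}(L)` BY `ι = (X ↦ X²)` are the pull-backs of its norms along
the two degeneracy maps `α, β : F_{N'}(L) → F_{N' q}(L)`.

* `ss2_dp_iota L N`        : `ι : F_N(L) → lg_E L N` (`F_N(L) = laurentBaseChange L (F_N)`);
* `ss2_dp_normE_iota`      : `s35_normE (ι g) = ι (Norm_α g)`;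
* `ss2_dp_WF`              : the Atkin–Lehner involution on `laurentBaseChange L F_{N' q}`;
* `ss2_dp_norm_alpha_WF`   : `Norm_α (W_F g) = Norm_β g`;
* `ss2_dp_WE_iota`         : `W_E (ι g) = ι (W_F g)`;
* `ss2_dp_normE_W_iota`    : `s35_normE (W_E (ι g)) = ι (Norm_β g)`.
Prefix `ss2_dp_`.
-/
import Mathlib
import Fermat.Agent.SS2.DescPhi.NormBar
import Fermat.Agent.S35.Seams
import Fermat.Agent.SS.Model.ALInst

set_option autoImplicit false
set_option linter.unusedSectionVars false
set_option linter.unusedVariables false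
set_option linter.style.haveILetI false

noncomputable section

namespace Fermat.Agent.SS2

open ModularCurve AlgebraicCurve Module Fermat.Agent.JT3 Fermat.Agent.S24 Fermat.Agent.SS
  Fermat.Agent.S35

local notation "Qb" => AlgebraicClosure ℚ

section Iota

variable (L : Type*) [Field L] [Algebra ℚ L] (N : ℕ) [NeZero N]

theorem ss2_dp_mem_lgF {x : LaurentSeries L}
    (hx : x ∈ laurentBaseChange L (modularFunctionFieldFull N)) : x ∈ lg_F L N := by
  rw [lg_F_eq_laurentBaseChange L N]; exact hx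

theorem ss2_dp_mem_lbc {x : LaurentSeries L} (hx : x ∈ lg_F L N) :
    x ∈ laurentBaseChange L (modularFunctionFieldFull N) := by
  rw [← lg_F_eq_laurentBaseChange L N]; exact hx

/-- `ι = (X ↦ X²) : F_N(L) → lg_E L N`. -/
def ss2_dp_iota :
    laurentBaseChange L (modularFunctionFieldFull N) →ₐ[L] lg_E L N :=
  ((qExpandAlgHomC L 2).comp
    (laurentBaseChange L (modularFunctionFieldFull N)).val).codRestrict
    (lg_E L N).toSubalgebra (fun x => lg_phi_mem_E L N (ss2_dp_mem_lgF L N x.2))

theorem ss2_dp_iota_coe (x : laurentBaseChange L (modularFunctionFieldFull N)) :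
    ((ss2_dp_iota L N x : lg_E L N) : LaurentSeries L) = qExpand L 2 (x : LaurentSeries L) := rfl

end Iota

section Cover

variable (L : Type*) [Field L] [Algebra ℚ L] [CharZero L] [Algebra L Qb]
  (N' q : ℕ) [NeZero N'] [NeZero q] [hq : Fact q.Prime] (hq2 : ¬ 2 ∣ q) (hqN' : ¬ q ∣ N')

theorem ss2_dp_normE_eq (y : lg_E L (N' * q)) :
    s35_normE N' q y =
      s35pe_normAlong (IntermediateField.inclusion (ssm_al_E_le L N' q)) y := rfl

include hq2 hqN' in
/-- a subfield of `E = lg_E L (N' q)` containing `E'` and `ι F_{N' q}` is everything. -/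
theorem ss2_dp_cover_gen (S : Subfield (lg_E L (N' * q)))
    (h1 : ∀ x : lg_E L N', IntermediateField.inclusion (ssm_al_E_le L N' q) x ∈ S)
    (h2 : ∀ y : laurentBaseChange L (modularFunctionFieldFull (N' * q)),
      ss2_dp_iota L (N' * q) y ∈ S) : S = ⊤ := by
  refine s35pe_subfield_eq_top (IntermediateField.sup_def _ _) S (fun c => ?_) fun x hx h => ?_
  · have := h1 (algebraMap L _ c)
    rwa [AlgHom.commutes] at this
  · rcases hx with hx | hx
    · -- `x ∈ φ F_{N' q}`
      obtain ⟨y, hy, rfl⟩ := hx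
      have hy' : y ∈ laurentBaseChange L (modularFunctionFieldFull (N' * q)) :=
        ss2_dp_mem_lbc L (N' * q) hy
      have := h2 ⟨y, hy'⟩
      have e : ss2_dp_iota L (N' * q) ⟨y, hy'⟩ = ⟨lg_phi L y, h⟩ := Subtype.ext rfl
      rwa [e] at this
    · -- `x ∈ L(λ) ⊆ E'`
      have hx' : x ∈ lg_E L N' := lg_K_le_E L N' hx
      have := h1 ⟨x, hx'⟩
      have e : IntermediateField.inclusion (ssm_al_E_le L N' q) ⟨x, hx'⟩ = ⟨x, h⟩ :=
        Subtype.ext rfl
      rwa [e] at this

theorem ss2_dp_iota_alpha (x : laurentBaseChange L (modularFunctionFieldFull N')) :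
    ss2_dp_iota L (N' * q) (heckeAlphaBar L N' q x) =
      IntermediateField.inclusion (ssm_al_E_le L N' q) (ss2_dp_iota L N' x) := by
  apply Subtype.ext
  rw [ss2_dp_iota_coe, coe_heckeAlphaBar, IntermediateField.coe_inclusion, ss2_dp_iota_coe]

include hq2 hqN' in
theorem ss2_dp_finrankAlong_E :
    finrankAlong L (IntermediateField.inclusion (ssm_al_E_le L N' q)) = q + 1 := by
  rw [s35pe_finrankAlong_inclusion, ssm_al_relfinrank_E L N' q hq.out hq2 hqN']

include hq2 hqN' in
/-- **(N2), inclusion**, `normAlong` form. -/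
theorem ss2_dp_normAlong_iota (g : laurentBaseChange L (modularFunctionFieldFull (N' * q))) :
    s35pe_normAlong (IntermediateField.inclusion (ssm_al_E_le L N' q))
        ((ss2_dp_iota L (N' * q)).toRingHom g) =
      (ss2_dp_iota L N').toRingHom (s35pe_normAlong (heckeAlphaBar L N' q) g) := by
  have hpos : 0 < finrankAlong L (heckeAlphaBar L N' q) := by
    rw [ss2_dp_finrankAlong_alpha L N' q hq.out hqN']; exact Nat.succ_pos q
  have hdeg : finrankAlong L (IntermediateField.inclusion (ssm_al_E_le L N' q)) =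
      finrankAlong L (heckeAlphaBar L N' q) := by
    rw [ss2_dp_finrankAlong_alpha L N' q hq.out hqN', ss2_dp_finrankAlong_E L N' q hq2 hqN']
  exact s35pe_normAlong_baseChange (heckeAlphaBar L N' q)
    (IntermediateField.inclusion (ssm_al_E_le L N' q)) (ss2_dp_iota L N').toRingHom
    (ss2_dp_iota L (N' * q)).toRingHom (fun x => ss2_dp_iota_alpha L N' q x) hpos hdeg
    (fun S h1 h2 => ss2_dp_cover_gen L N' q hq2 hqN' S h1 h2) g

include hq2 hqN' in
/-- **(N2), inclusion**: `Norm_{E/E'} (ι g) = ι (Norm_α g)`. -/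
theorem ss2_dp_normE_iota (g : laurentBaseChange L (modularFunctionFieldFull (N' * q))) :
    s35_normE N' q (ss2_dp_iota L (N' * q) g) =
      ss2_dp_iota L N' (s35pe_normAlong (heckeAlphaBar L N' q) g) :=
  ss2_dp_normAlong_iota L N' q hq2 hqN' g

/-- the Atkin–Lehner involution of `F_{N' q}(L)` in the base-change vocabulary. -/
def ss2_dp_WF :
    laurentBaseChange L (modularFunctionFieldFull (N' * q)) ≃ₐ[L]
      laurentBaseChange L (modularFunctionFieldFull (N' * q)) :=
  ssm_al_transport (lg_F_eq_laurentBaseChange L (N' * q)).symm (ssm_al_W L N' q hq.out hqN')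

theorem ss2_dp_WF_coe (g : laurentBaseChange L (modularFunctionFieldFull (N' * q))) :
    ((ss2_dp_WF L N' q hqN' g : laurentBaseChange L (modularFunctionFieldFull (N' * q))) :
        LaurentSeries L) =
      ((ssm_al_W L N' q hq.out hqN' ⟨g, ss2_dp_mem_lgF L (N' * q) g.2⟩ : lg_F L (N' * q)) :
        LaurentSeries L) :=
  ssm_al_coe_transport (lg_F_eq_laurentBaseChange L (N' * q)).symm _ (g : LaurentSeries L) g.2 _

/-- `W_F (β x) = α x`. -/
theorem ss2_dp_WF_beta (x : laurentBaseChange L (modularFunctionFieldFull N')) :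
    ss2_dp_WF L N' q hqN' (heckeBetaBar L N' q x) = heckeAlphaBar L N' q x := by
  apply Subtype.ext
  rw [ss2_dp_WF_coe, coe_heckeAlphaBar]
  have hx : (x : LaurentSeries L) ∈ lg_F L N' := ss2_dp_mem_lgF L N' x.2
  exact ssm_al_coe_W_expand_of_mem L N' q hq.out hqN' hx _

/-- **`Norm_α (W_F g) = Norm_β g`.** -/
theorem ss2_dp_norm_alpha_WF (g : laurentBaseChange L (modularFunctionFieldFull (N' * q))) :
    s35pe_normAlong (heckeAlphaBar L N' q) (ss2_dp_WF L N' q hqN' g) =
      s35pe_normAlong (heckeBetaBar L N' q) g := by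
  have h := @Algebra.norm_eq_of_equiv_equiv
    (laurentBaseChange L (modularFunctionFieldFull N'))
    (laurentBaseChange L (modularFunctionFieldFull (N' * q)))
    (laurentBaseChange L (modularFunctionFieldFull N'))
    (laurentBaseChange L (modularFunctionFieldFull (N' * q))) _ _ _ _
    (algebraAlong (heckeBetaBar L N' q)) (algebraAlong (heckeAlphaBar L N' q))
    (RingEquiv.refl _) (ss2_dp_WF L N' q hqN').toRingEquiv
    (RingHom.ext fun x => (ss2_dp_WF_beta L N' q hqN' x).symm) g
  exact h.symm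

include hq2 in
/-- **`W_E (ι g) = ι (W_F g)`.** -/
theorem ss2_dp_WE_iota (g : laurentBaseChange L (modularFunctionFieldFull (N' * q))) :
    ssm_gl_W L N' q hq2 hqN' (ss2_dp_iota L (N' * q) g) =
      ss2_dp_iota L (N' * q) (ss2_dp_WF L N' q hqN' g) := by
  apply Subtype.ext
  rw [ss2_dp_iota_coe, ss2_dp_WF_coe, ssm_gl_W_apply]
  exact ssm_al_coe_WE_phi L N' q hq.out hq2 hqN' ⟨g, ss2_dp_mem_lgF L (N' * q) g.2⟩ _

include hq2 in
/-- **(N2), Atkin–Lehner**: `Norm_{E/E'} (W_E (ι g)) = ι (Norm_β g)`. -/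
theorem ss2_dp_normE_W_iota (g : laurentBaseChange L (modularFunctionFieldFull (N' * q))) :
    s35_normE N' q (ssm_gl_W L N' q hq2 hqN' (ss2_dp_iota L (N' * q) g)) =
      ss2_dp_iota L N' (s35pe_normAlong (heckeBetaBar L N' q) g) := by
  rw [ss2_dp_WE_iota, ss2_dp_normE_iota L N' q hq2 hqN', ss2_dp_norm_alpha_WF]

end Cover

end Fermat.Agent.SS2
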