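/-
Project S35 (SS2), cell [DESC-φ] (helper22), part (R): ROOT DESCENT WITHOUT ADJOINING ROOTS.

`F₀ ⊆ ℚ((q))`, `F_L := laurentBaseChange L F₀`, `L1 → Q̄` a subfield, `x` a separating generator of
`F_Q̄ / Q̄`.

* `ss2_dp_const_of_bc_const` : an element of `F_{L1}` which becomes constant in `F_Q̄` is a constant
                               of `L1`;
* `ss2_dp_root_descent`      : `h ∈ F_{L1}` with `bc h = c · r^m` (`c ∈ Q̄`, `r ∈ F_Q̄`) is
                               `a · s^m` with `a ∈ L1`, `s ∈ F_{L1}`.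
  (Normalise the leading `q`-coefficient of `r`: for `τ` fixing `L1`, `(τ r / r)^m` is constant, so
  `τ r / r` is constant, hence `1` for the normalised `r`; the fixed field of `Gal(Q̄/L1)` in `F_Q̄`
  is `F_{L1}`.  No `m`-th root of a constant is adjoined.)
Prefix `ss2_dp_`.
-/
import Mathlib
import Fermat.Agent.SS2.DescU.Descend

set_option autoImplicit false
set_option linter.unusedSectionVars false
set_option linter.unusedVariables false
set_option linter.style.haveILetI false

noncomputable section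

namespace Fermat.Agent.SS2

open ModularCurve AlgebraicCurve Fermat.Agent.JT3 Fermat.Agent.S24 Fermat.Agent.SS
  IntermediateField Polynomial

local notation "Qb" => AlgebraicClosure ℚ

variable {F₀ : IntermediateField ℚ (LaurentSeries ℚ)}
  (L1 : Type) [Field L1] [Algebra ℚ L1] [Algebra L1 Qb] [IsScalarTower ℚ L1 Qb]

/-- an element of `F_{L1}` which becomes constant in `F_Q̄` is a constant of `L1`. -/
theorem ss2_dp_const_of_bc_const (w : laurentBaseChange L1 F₀) (d : Qb)
    (hw : dsc_bcHom L1 Qb F₀ w = algebraMap Qb (laurentBaseChange Qb F₀) d) :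
    ∃ a : L1, w = algebraMap L1 (laurentBaseChange L1 F₀) a := by
  refine ⟨(w : LaurentSeries L1).coeff 0, ?_⟩
  apply Subtype.ext
  have h1 : dsc_cm L1 Qb (w : LaurentSeries L1) = algebraMap Qb (LaurentSeries Qb) d := by
    have := congrArg (fun z : laurentBaseChange Qb F₀ => (z : LaurentSeries Qb)) hw
    simpa using this
  show (w : LaurentSeries L1) = algebraMap L1 (LaurentSeries L1) _
  rw [algebraMap_laurentSeries_eq_single]
  ext k
  rw [HahnSeries.coeff_single]
  by_cases hk : k = 0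
  · rw [if_pos hk, hk]
  · rw [if_neg hk]
    have h2 : (dsc_cm L1 Qb (w : LaurentSeries L1)).coeff k =
        (algebraMap Qb (LaurentSeries Qb) d).coeff k := by rw [h1]
    rw [dsc_cm, coeffMap_coeff, algebraMap_laurentSeries_eq_single, HahnSeries.coeff_single,
      if_neg hk] at h2
    exact (map_eq_zero (algebraMap L1 Qb)).mp h2

/-- **root descent without adjoining roots.** -/
theorem ss2_dp_root_descent {x : laurentBaseChange Qb F₀} (hx : rt_IsSepGen Qb x)
    {m : ℕ} (hm : m ≠ 0) (h : laurentBaseChange L1 F₀) (c : Qb) (r : laurentBaseChange Qb F₀)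
    (hr : dsc_bcHom L1 Qb F₀ h = algebraMap Qb (laurentBaseChange Qb F₀) c * r ^ m) :
    ∃ (a : L1) (s : laurentBaseChange L1 F₀),
      h = algebraMap L1 (laurentBaseChange L1 F₀) a * s ^ m := by
  classical
  rcases eq_or_ne h 0 with rfl | hh
  · exact ⟨0, 0, by rw [map_zero, zero_mul]⟩
  have hbh : dsc_bcHom L1 Qb F₀ h ≠ 0 := by rwa [Ne, map_eq_zero]
  have hc0 : c ≠ 0 := by
    rintro rfl
    rw [map_zero, zero_mul] at hr
    exact hbh hr
  have hr0 : r ≠ 0 := by
    rintro rfl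
    rw [zero_pow hm, mul_zero] at hr
    exact hbh hr
  obtain ⟨a0, ha0, hlead⟩ := ss2_du_exists_lead F₀ r hr0
  set r1 : laurentBaseChange Qb F₀ := algebraMap Qb (laurentBaseChange Qb F₀) a0⁻¹ * r with hr1
  have hCa0 : algebraMap Qb (laurentBaseChange Qb F₀) a0⁻¹ ≠ 0 :=
    (_root_.map_ne_zero _).mpr (inv_ne_zero ha0)
  have hr10 : r1 ≠ 0 := mul_ne_zero hCa0 hr0
  -- `bc h = (c a0^m) · r1^m`
  have hr' : dsc_bcHom L1 Qb F₀ h =
      algebraMap Qb (laurentBaseChange Qb F₀) (c * a0 ^ m) * r1 ^ m := by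
    rw [hr, hr1, mul_pow, ← map_pow, ← mul_assoc, ← map_mul, inv_pow, mul_assoc c,
      mul_inv_cancel₀ (pow_ne_zero m ha0), mul_one]
  -- `r1` is fixed
  have hfixed : ∀ τ : Qb ≃ₐ[ℚ] Qb, (∀ a : L1, τ (algebraMap L1 Qb a) = algebraMap L1 Qb a) →
      arithmeticGalois F₀ τ • r1 = r1 := by
    intro τ hτ
    have hτr10 : arithmeticGalois F₀ τ • r1 ≠ 0 := by
      rwa [Ne, smul_eq_zero_iff_eq]
    have h1 := ssd_smul_bcHom F₀ L1 τ hτ h
    rw [hr', smul_mul', smul_pow', SemilinearAut.smul_algebraMap] at h1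
    -- `(τ r1 / r1)^m` is a constant
    set d : Qb := (SemilinearAut.baseAut (arithmeticGalois F₀ τ)) (c * a0 ^ m) with hd
    have hd0 : d ≠ 0 := by
      rw [hd]
      exact (_root_.map_ne_zero _).mpr (mul_ne_zero hc0 (pow_ne_zero m ha0))
    have hCd : algebraMap Qb (laurentBaseChange Qb F₀) d ≠ 0 := (_root_.map_ne_zero _).mpr hd0
    have hzm : (arithmeticGalois F₀ τ • r1 * r1⁻¹) ^ m =
        algebraMap Qb (laurentBaseChange Qb F₀) (d⁻¹ * (c * a0 ^ m)) := by
      rw [mul_pow, inv_pow, map_mul, map_inv₀]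
      have h3 : r1 ^ m ≠ 0 := pow_ne_zero m hr10
      field_simp
      rw [mul_comm, h1, mul_comm]
    have hz0 : arithmeticGalois F₀ τ • r1 * r1⁻¹ ≠ 0 := mul_ne_zero hτr10 (inv_ne_zero hr10)
    have hord : ∀ v : Place Qb (laurentBaseChange Qb F₀),
        v.ord (arithmeticGalois F₀ τ • r1 * r1⁻¹) = 0 := by
      intro v
      have h4 := congrArg v.ord hzm
      rw [rt_ord_pow, hw_ord_algebraMap] at h4
      rcases mul_eq_zero.mp h4 with h5 | h5
      · exact absurd (by exact_mod_cast h5) hm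
      · exact h5
    obtain ⟨e, he0, he⟩ := ss2_du_const_of_div_eq_zero hx hz0 hord
    have h6 : arithmeticGalois F₀ τ • r1 = algebraMap Qb (laurentBaseChange Qb F₀) e * r1 := by
      rw [← he, mul_assoc, inv_mul_cancel₀ hr10, mul_one]
    have he1 := hlead τ e h6
    rw [h6, he1, map_one, one_mul]
  obtain ⟨s1, hs1⟩ := ss2_du_fixed_mem_range F₀ L1 r1 hfixed
  have hs10 : s1 ≠ 0 := by
    rintro rfl
    rw [map_zero] at hs1
    exact hr10 hs1.symm
  -- the quotient is constant
  have hw : dsc_bcHom L1 Qb F₀ (h * (s1 ^ m)⁻¹) =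
      algebraMap Qb (laurentBaseChange Qb F₀) (c * a0 ^ m) := by
    rw [map_mul, map_inv₀, map_pow, hs1, hr', mul_assoc, mul_inv_cancel₀ (pow_ne_zero m hr10),
      mul_one]
  obtain ⟨a, ha⟩ := ss2_dp_const_of_bc_const L1 _ _ hw
  refine ⟨a, s1, ?_⟩
  rw [← ha, mul_assoc, inv_mul_cancel₀ (pow_ne_zero m hs10), mul_one]

end Fermat.Agent.SS2
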