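/-
Project S35 (SS2), cell [DESC-φ] (helper22): GENERIC ALGEBRA of the descent step.

* `ss2_dp_transfer`     : from `f = c₀ r₀^m g` and `(Φ g)^d = c r^m g^(Q d)` to
                          `(Φ f)^d = c' r'^m f^(Q d)`  (`Φ` a ring endomorphism);
* `ss2_dp_norm_quot`    : from `f = c₀ r₀^m g` and `N f = c r^m` to `N g = c' r'^m`
                          (`N` multiplicative, `N c₀` a constant);
* `ss2_dp_dvd_ord_quot` : if all orders of `g` are divisible by `m`, so are all orders of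
                          `(Φ g)^d / g^e` for a semilinear automorphism `Φ`.
Prefix `ss2_dp_`.
-/
import Mathlib
import Fermat.Agent.SS.Descent.Step

set_option autoImplicit false
set_option linter.unusedSectionVars false
set_option linter.unusedVariables false

noncomputable section

namespace Fermat.Agent.SS2

open AlgebraicCurve Fermat.Agent.SS

/-- transfer of the Kummer relation along `f = c₀ · r₀^m · g`. -/
theorem ss2_dp_transfer {F : Type*} [Field F] (Φ : F →+* F) {f g c₀ r₀ c r : F} {m d Q : ℕ}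
    (hc₀ : c₀ ≠ 0) (hr₀ : r₀ ≠ 0) (hf : f = c₀ * r₀ ^ m * g)
    (h : Φ g ^ d = c * r ^ m * g ^ (Q * d)) :
    Φ f ^ d = (Φ c₀ ^ d * c / c₀ ^ (Q * d)) * (Φ r₀ ^ d * r / r₀ ^ (Q * d)) ^ m * f ^ (Q * d) := by
  have h1 : Φ f ^ d = Φ c₀ ^ d * (Φ r₀ ^ d) ^ m * Φ g ^ d := by
    rw [hf, map_mul, map_mul, map_pow, mul_pow, mul_pow, ← pow_mul, ← pow_mul, mul_comm m d]
  have h2 : f ^ (Q * d) = c₀ ^ (Q * d) * (r₀ ^ (Q * d)) ^ m * g ^ (Q * d) := by
    rw [hf, mul_pow, mul_pow, ← pow_mul, ← pow_mul, mul_comm m (Q * d)]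
  have hc : c₀ ^ (Q * d) ≠ 0 := pow_ne_zero _ hc₀
  have hr : r₀ ^ (Q * d) ≠ 0 := pow_ne_zero _ hr₀
  rw [h1, h, h2, div_pow, mul_pow]
  field_simp

/-- the norm of `g` from the norm of `f = c₀ · r₀^m · g`. -/
theorem ss2_dp_norm_quot {F F' : Type*} [Field F] [Field F'] (Nm : F' →* F) {f g c₀ r₀ : F'}
    {m : ℕ} (hf : f = c₀ * r₀ ^ m * g) (hc₀ : Nm c₀ ≠ 0) (hr₀ : Nm r₀ ≠ 0) {c r : F}
    (h : Nm f = c * r ^ m) :
    Nm g = (c / Nm c₀) * (r / Nm r₀) ^ m := by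
  have h1 : Nm f = Nm c₀ * Nm r₀ ^ m * Nm g := by
    rw [hf, map_mul, map_mul, map_pow]
  have hr : Nm r₀ ^ m ≠ 0 := pow_ne_zero _ hr₀
  have h2 : c * r ^ m = Nm c₀ * Nm r₀ ^ m * Nm g := by rw [← h, h1]
  rw [div_pow]
  field_simp
  rw [h2]
  ring

section Ord

variable {K F : Type*} [Field K] [Field F] [Algebra K F]

/-- if all orders of `g` are divisible by `m`, so are all orders of `(Φ² g)^d / g^e`. -/
theorem ss2_dp_dvd_ord_quot (Φ : SemilinearAut K F) (m : ℤ) {g : F} (hg : g ≠ 0)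
    (h : ∀ v : Place K F, m ∣ v.ord g) (d e : ℕ) (w : Place K F) :
    m ∣ w.ord ((Φ • (Φ • g)) ^ d / g ^ e) := by
  have hΦg : Φ • g ≠ 0 := by rwa [Ne, smul_eq_zero_iff_eq]
  have hΦΦg : Φ • (Φ • g) ≠ 0 := by rwa [Ne, smul_eq_zero_iff_eq]
  rw [div_eq_mul_inv, w.ord_mul (pow_ne_zero d hΦΦg) (inv_ne_zero (pow_ne_zero e hg)), w.ord_inv,
    ← zpow_natCast, w.ord_zpow, ← zpow_natCast, w.ord_zpow, ssd_ord_smul, ssd_ord_smul]
  exact dvd_add (Dvd.dvd.mul_left (h _) _) ((dvd_neg).2 (Dvd.dvd.mul_left (h _) _))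

end Ord

end Fermat.Agent.SS2
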