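/-
Project S35 (SS2), cell [DESC-φ] (helper22), Legendre cover: THE DESCENT STEP over one level
`L1 ⊆ Q̄`.

`g1 ∈ F_{N' q}(L1)`, `G = bc g1 ∈ F_{N' q}(Q̄)`, `ι = (X ↦ X²) : F_{N' q}(L1) → E = lg_E L1 (N' q)`.

* `ss2_dp_newAt`     : if the norms of `G` along `α`, `β` are constants times `m`-th powers (over
                       `Q̄`), then `ι g1` satisfies `s35_NewAt` over `L1` ((N1) + (R) + (N2));
* `ss2_dp_pullback`  : from the core relation `(σ²(ι g1))^d = c · r^m · (ι g1)^(Q d)` in the cover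
                       over `L1` to `(φ² G)^d = c' · r'^m · G^(Q d)` over `Q̄` (root descent
                       `E → F_{N' q}(L1)` + extension of constants).
Prefix `ss2_dp_`.
-/
import Mathlib
import Fermat.Agent.SS2.DescPhi.Root
import Fermat.Agent.SS2.DescPhi.NormCover
import Fermat.Agent.SS2.DescPhi.Transfer
import Fermat.Agent.SS.Descent
import Fermat.Agent.JT3.Riemann.FBar

set_option autoImplicit false
set_option linter.unusedSectionVars false
set_option linter.unusedVariables false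
set_option linter.style.haveILetI false

noncomputable section

namespace Fermat.Agent.SS2

open ModularCurve AlgebraicCurve Module Fermat.Agent.JT3 Fermat.Agent.S24 Fermat.Agent.SS
  Fermat.Agent.S35

local notation "Qb" => AlgebraicClosure ℚ

section NewAt

variable (L1 : Type) [Field L1] [Algebra ℚ L1] [CharZero L1] [Algebra L1 Qb]
  [IsScalarTower ℚ L1 Qb]
  (N' q : ℕ) [NeZero N'] [NeZero q] [hq : Fact q.Prime] (hq2 : ¬ 2 ∣ q) (hqN' : ¬ q ∣ N')

include hqN' in
/-- the norm along `α` of a nonzero function is nonzero. -/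
theorem ss2_dp_normAlong_alpha_ne_zero (L : Type*) [Field L] [Algebra ℚ L] [Algebra L Qb]
    {g : laurentBaseChange L (modularFunctionFieldFull (N' * q))} (hg : g ≠ 0) :
    s35pe_normAlong (heckeAlphaBar L N' q) g ≠ 0 := by
  letI := algebraAlong (heckeAlphaBar L N' q)
  haveI : FiniteDimensional (laurentBaseChange L (modularFunctionFieldFull N'))
      (laurentBaseChange L (modularFunctionFieldFull (N' * q))) :=
    FiniteDimensional.of_finrank_pos (by
      have h := ss2_dp_finrankAlong_alpha L N' q hq.out hqN'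
      rw [finrankAlong] at h
      rw [h]; exact Nat.succ_pos q)
  haveI : Module.Free (laurentBaseChange L (modularFunctionFieldFull N'))
      (laurentBaseChange L (modularFunctionFieldFull (N' * q))) :=
    Module.Free.of_divisionRing _ _
  show Algebra.norm (laurentBaseChange L (modularFunctionFieldFull N')) g ≠ 0
  exact Algebra.norm_ne_zero_iff.mpr hg

include hqN' in
/-- the norm along `β` of a nonzero function is nonzero. -/
theorem ss2_dp_normAlong_beta_ne_zero (L : Type*) [Field L] [Algebra ℚ L] [Algebra L Qb]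
    {g : laurentBaseChange L (modularFunctionFieldFull (N' * q))} (hg : g ≠ 0) :
    s35pe_normAlong (heckeBetaBar L N' q) g ≠ 0 := by
  letI := algebraAlong (heckeBetaBar L N' q)
  haveI : FiniteDimensional (laurentBaseChange L (modularFunctionFieldFull N'))
      (laurentBaseChange L (modularFunctionFieldFull (N' * q))) :=
    FiniteDimensional.of_finrank_pos (by
      have h := ss2_dp_finrankAlong_beta L N' q hq.out hqN'
      rw [finrankAlong] at h
      rw [h]; exact Nat.succ_pos q)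
  haveI : Module.Free (laurentBaseChange L (modularFunctionFieldFull N'))
      (laurentBaseChange L (modularFunctionFieldFull (N' * q))) :=
    Module.Free.of_divisionRing _ _
  show Algebra.norm (laurentBaseChange L (modularFunctionFieldFull N')) g ≠ 0
  exact Algebra.norm_ne_zero_iff.mpr hg

include hq2 hqN' in
/-- **the new-at package over `L1`** from the norms over `Q̄`. -/
theorem ss2_dp_newAt {m : ℕ} (hm : m ≠ 0)
    (g1 : laurentBaseChange L1 (modularFunctionFieldFull (N' * q))) (hg1 : g1 ≠ 0)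
    (hord : ∀ w : Place L1 (laurentBaseChange L1 (modularFunctionFieldFull (N' * q))),
      (m : ℤ) ∣ w.ord g1)
    (hA : ∃ (c : Qb) (r : modularFunctionFieldBar N'),
      s35pe_normAlong (heckeAlphaBar Qb N' q)
        (dsc_bcHom L1 Qb (modularFunctionFieldFull (N' * q)) g1) =
          algebraMap Qb (modularFunctionFieldBar N') c * r ^ m)
    (hB : ∃ (c : Qb) (r : modularFunctionFieldBar N'),
      s35pe_normAlong (heckeBetaBar Qb N' q)
        (dsc_bcHom L1 Qb (modularFunctionFieldFull (N' * q)) g1) =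
          algebraMap Qb (modularFunctionFieldBar N') c * r ^ m) :
    s35_NewAt N' q hq2 hqN' m (ss2_dp_iota L1 (N' * q) g1) := by
  refine ⟨?_, ?_, ?_, ?_⟩
  · rwa [Ne, map_eq_zero]
  · intro v
    exact lg_dvd_ord_of_embedding (ss2_dp_iota L1 (N' * q)) (m : ℤ) g1 hord v
  · obtain ⟨c, r, hcr⟩ := hA
    rw [ss2_dp_norm_bc_alpha L1 N' q hq.out hqN'] at hcr
    obtain ⟨a, s, has⟩ := ss2_dp_root_descent L1 (rt_isSepGen_jBar N') hm _ c r hcr
    have hs : s ≠ 0 := by
      rintro rfl
      rw [zero_pow hm, mul_zero] at has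
      exact ss2_dp_normAlong_alpha_ne_zero N' q hqN' L1 hg1 has
    refine ⟨a, ss2_dp_iota L1 N' s, by rwa [Ne, map_eq_zero], ?_⟩
    rw [ss2_dp_normE_iota L1 N' q hq2 hqN', has, map_mul, map_pow, AlgHom.commutes]
  · obtain ⟨c, r, hcr⟩ := hB
    rw [ss2_dp_norm_bc_beta L1 N' q hq.out hqN'] at hcr
    obtain ⟨a, s, has⟩ := ss2_dp_root_descent L1 (rt_isSepGen_jBar N') hm _ c r hcr
    have hs : s ≠ 0 := by
      rintro rfl
      rw [zero_pow hm, mul_zero] at has
      exact ss2_dp_normAlong_beta_ne_zero N' q hqN' L1 hg1 has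
    refine ⟨a, ss2_dp_iota L1 N' s, by rwa [Ne, map_eq_zero], ?_⟩
    rw [ss2_dp_normE_W_iota L1 N' q hq2 hqN', has, map_mul, map_pow, AlgHom.commutes]

end NewAt

section Pullback

variable (L1 : Type) [Field L1] [Algebra ℚ L1] [CharZero L1] [Algebra L1 Qb]
  [IsScalarTower ℚ L1 Qb] (N : ℕ) [NeZero N]

/-- `ι (σ1 • x) = σ_E (ι x)`. -/
theorem ss2_dp_iota_smul (σ1 : L1 ≃ₐ[ℚ] L1)
    (x : laurentBaseChange L1 (modularFunctionFieldFull N)) :
    ss2_dp_iota L1 N (arithmeticGalois (modularFunctionFieldFull N) σ1 • x) =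
      ssm_sg_aut N σ1.toRingEquiv (ss2_dp_iota L1 N x) := by
  apply Subtype.ext
  rw [ss2_dp_iota_coe, coe_arithmeticGalois_smul, ssm_sg_aut_coe, ss2_dp_iota_coe,
    ← coeffMap_qExpand]
  exact coeffMap_congr (RingHom.ext fun _ => rfl) _

/-- `bc (σ1 • x) = φ • bc x` when `σ1 = φ|L1`. -/
theorem ss2_dp_bc_smul (φ : Qb ≃ₐ[ℚ] Qb) (σ1 : L1 ≃ₐ[ℚ] L1)
    (hσ : ∀ x : L1, algebraMap L1 Qb (σ1 x) = φ (algebraMap L1 Qb x))
    (x : laurentBaseChange L1 (modularFunctionFieldFull N)) :
    dsc_bcHom L1 Qb (modularFunctionFieldFull N)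
        (arithmeticGalois (modularFunctionFieldFull N) σ1 • x) =
      arithmeticGalois (modularFunctionFieldFull N) φ •
        dsc_bcHom L1 Qb (modularFunctionFieldFull N) x := by
  apply Subtype.ext
  rw [coe_arithmeticGalois_smul, dsc_bcHom_coe, dsc_bcHom_coe, coe_arithmeticGalois_smul,
    dsc_cm, coeffMap_coeffMap, coeffMap_coeffMap]
  apply coeffMap_congr
  ext a
  exact hσ a

/-- **from the core relation in the cover over `L1` to the Kummer relation over `Q̄`.** -/
theorem ss2_dp_pullback (φ : Qb ≃ₐ[ℚ] Qb) (σ1 : L1 ≃ₐ[ℚ] L1)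
    (hσ : ∀ x : L1, algebraMap L1 Qb (σ1 x) = φ (algebraMap L1 Qb x))
    {m : ℕ} (hm : m ≠ 0) (d e : ℕ)
    (g1 : laurentBaseChange L1 (modularFunctionFieldFull N)) (hg1 : g1 ≠ 0)
    (hord : ∀ w : Place L1 (laurentBaseChange L1 (modularFunctionFieldFull N)),
      (m : ℤ) ∣ w.ord g1)
    (c : L1) (r : lg_E L1 N)
    (hcr : ssm_sg_aut N σ1.toRingEquiv (ssm_sg_aut N σ1.toRingEquiv (ss2_dp_iota L1 N g1)) ^ d =
      algebraMap L1 (lg_E L1 N) c * r ^ m * ss2_dp_iota L1 N g1 ^ e) :
    ∃ (c' : Qb) (r' : modularFunctionFieldBar N), r' ≠ 0 ∧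
      ss_act N φ (ss_act N φ (dsc_bcHom L1 Qb (modularFunctionFieldFull N) g1)) ^ d =
        algebraMap Qb (modularFunctionFieldBar N) c' * r' ^ m *
          dsc_bcHom L1 Qb (modularFunctionFieldFull N) g1 ^ e := by
  set Φ1 := arithmeticGalois (modularFunctionFieldFull N) σ1 with hΦ1
  set G := dsc_bcHom L1 Qb (modularFunctionFieldFull N) g1 with hG
  have hΦg : Φ1 • g1 ≠ 0 := by rwa [Ne, smul_eq_zero_iff_eq]
  have hΦΦg : Φ1 • (Φ1 • g1) ≠ 0 := by rwa [Ne, smul_eq_zero_iff_eq]
  have hιg : ss2_dp_iota L1 N g1 ≠ 0 := by rwa [Ne, map_eq_zero]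
  have hG0 : G ≠ 0 := by rwa [hG, Ne, map_eq_zero]
  obtain ⟨h1, hh1⟩ : ∃ h1 : laurentBaseChange L1 (modularFunctionFieldFull N),
      h1 = (Φ1 • (Φ1 • g1)) ^ d / g1 ^ e := ⟨_, rfl⟩
  have hh10 : h1 ≠ 0 := by
    rw [hh1]
    exact div_ne_zero (pow_ne_zero _ hΦΦg) (pow_ne_zero _ hg1)
  have hordh : ∀ w : Place L1 (laurentBaseChange L1 (modularFunctionFieldFull N)),
      (m : ℤ) ∣ w.ord h1 := fun w => by
    rw [hh1]
    exact ss2_dp_dvd_ord_quot Φ1 (m : ℤ) hg1 hord d e w
  -- the image of `h1` in the cover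
  have hιh : ss2_dp_iota L1 N h1 = algebraMap L1 (lg_E L1 N) c * r ^ m := by
    rw [hh1, map_div₀, map_pow, map_pow, ss2_dp_iota_smul, ss2_dp_iota_smul, hcr]
    field_simp
  -- root descent from the cover
  have hmemE : ∀ x : LaurentSeries L1, x ∈ lg_E L1 N → x ∈ laurentBaseChange L1 (lg_E ℚ N) :=
    fun x hx => by rw [← ssd_lg_E_eq L1 N]; exact hx
  have heq : qExpand L1 2 (h1 : LaurentSeries L1) =
      algebraMap L1 (LaurentSeries L1) c * (r : LaurentSeries L1) ^ m := by
    have := congrArg (fun z : lg_E L1 N => (z : LaurentSeries L1)) hιh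
    exact this
  obtain ⟨c', g', hcg⟩ := ssd_leg_rootDescent N L1 hm h1 hordh c (r : LaurentSeries L1)
    (hmemE _ r.2) heq
  have hg'0 : g' ≠ 0 := by
    rintro rfl
    rw [zero_pow hm, mul_zero] at hcg
    exact hh10 hcg
  refine ⟨algebraMap L1 Qb c', dsc_bcHom L1 Qb (modularFunctionFieldFull N) g',
    by rwa [Ne, map_eq_zero], ?_⟩
  -- base change
  have e1 : dsc_bcHom L1 Qb (modularFunctionFieldFull N) h1 =
      ss_act N φ (ss_act N φ G) ^ d / G ^ e := by
    rw [hh1, map_div₀, map_pow, map_pow, ss2_dp_bc_smul L1 N φ σ1 hσ,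
      ss2_dp_bc_smul L1 N φ σ1 hσ]
  have e2 : dsc_bcHom L1 Qb (modularFunctionFieldFull N) h1 =
      algebraMap Qb (modularFunctionFieldBar N) (algebraMap L1 Qb c') *
        dsc_bcHom L1 Qb (modularFunctionFieldFull N) g' ^ m := by
    rw [hcg, map_mul, map_pow, dsc_bcHom_algebraMap]
  rw [← e2, e1, div_mul_cancel₀ _ (pow_ne_zero e hG0)]

end Pullback

end Fermat.Agent.SS2
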