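/-
Project S35 (SS2), cell [DESC-φ] (helper22), Legendre cover (`q` odd): THE KUMMER SEAM FROM THE CORE
OVER THE UNRAMIFIED NUMBER FIELDS.

  `ss2_dp_keyBar : ss2_dp_CoreNF N' q hq2 hqN' → s35_KeyBar N' q`.

Proof.  Given `A | q`, `φ` Frobenius at `A`, take `d, T` from the core.  For `m` prime to `q` and `f`
as in the seam: `T' := T ∪ {ζ_m}` is fixed by `I_A`; the unramified descent `s35d_descU` gives a
level `L1 ⊇ T'` and `g1 ∈ F_{N' q}(L1)` with `f = c₀ · r₀^m · bc g1`; the norms of `bc g1` along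
`α, β` are constants times `m`-th powers (`ss2_dp_norm_quot`), hence `ι g1` is new at `L1`
(`ss2_dp_newAt`); the core over `(L1, φ|L1)` and `ss2_dp_pullback` give the relation for `bc g1`,
and `ss2_dp_transfer` the relation for `f`.
Prefix `ss2_dp_`.
-/
import Mathlib
import Fermat.Agent.SS2.DescPhi.StepLeg
import Fermat.Agent.SS2.DescPhi.Seam
import Fermat.Agent.S35.DescU

set_option autoImplicit false
set_option linter.unusedSectionVars false
set_option linter.unusedVariables false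
set_option linter.style.haveILetI false

noncomputable section

namespace Fermat.Agent.SS2

open ModularCurve AlgebraicCurve Module Fermat.Agent.JT3 Fermat.Agent.S24 Fermat.Agent.SS
  Fermat.Agent.S35 Fermat.Agent.FF

local notation "GQ" => (AlgebraicClosure ℚ ≃ₐ[ℚ] AlgebraicClosure ℚ)
local notation "Qb" => AlgebraicClosure ℚ

section Bar

variable (N' q : ℕ) [NeZero N'] [NeZero q] [hq : Fact q.Prime]

theorem ss2_dp_normA_eq (f : Fbar (N' * q)) :
    s35_normA N' q f = s35pe_normAlong (heckeAlphaBar Qb N' q) f := rfl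

theorem ss2_dp_normB_eq (f : Fbar (N' * q)) :
    s35_normB N' q f = s35pe_normAlong (heckeBetaBar Qb N' q) f := rfl

/-- the norm along a degeneracy map of a constant is a constant. -/
theorem ss2_dp_normAlong_const {F F' : Type*} [Field F] [Field F'] [Algebra Qb F] [Algebra Qb F']
    (γ : F →ₐ[Qb] F') (c : Qb) :
    s35pe_normAlong γ (algebraMap Qb F' c) =
      algebraMap Qb F (c ^ finrankAlong Qb γ) := by
  letI := algebraAlong γ
  have h : algebraMap Qb F' c = algebraMap F F' (algebraMap Qb F c) := (γ.commutes c).symm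
  rw [h]
  show Algebra.norm F (algebraMap F F' (algebraMap Qb F c)) = _
  rw [Algebra.norm_algebraMap, map_pow]
  rfl

include hq in
/-- the norms of `G` from the norms of `f = c₀ · r₀^m · G`. -/
theorem ss2_dp_norm_of_factor (hqN' : ¬ q ∣ N') (γ : Fbar N' →ₐ[Qb] Fbar (N' * q))
    (hγ : ∀ x : Fbar (N' * q), x ≠ 0 → s35pe_normAlong γ x ≠ 0)
    {m : ℕ} {f G r₀ : Fbar (N' * q)} {c₀ : Qb} (hc₀ : c₀ ≠ 0) (hr₀ : r₀ ≠ 0)
    (hf : f = algebraMap Qb (Fbar (N' * q)) c₀ * r₀ ^ m * G)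
    (h : ∃ (c : Qb) (r : Fbar N'), r ≠ 0 ∧
      s35pe_normAlong γ f = algebraMap Qb (Fbar N') c * r ^ m) :
    ∃ (c : Qb) (r : Fbar N'), s35pe_normAlong γ G = algebraMap Qb (Fbar N') c * r ^ m := by
  obtain ⟨c, r, -, hcr⟩ := h
  have hC : algebraMap Qb (Fbar (N' * q)) c₀ ≠ 0 := by rwa [Ne, map_eq_zero]
  have h1 := ss2_dp_norm_quot (s35pe_normAlong γ) hf (hγ _ hC) (hγ _ hr₀) hcr
  rw [ss2_dp_normAlong_const, ← map_div₀] at h1
  exact ⟨_, _, h1⟩

end Bar

section Main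

/-- the Galois action on a constant function. -/
theorem ss2_dp_act_const (N : ℕ) [NeZero N] (φ : GQ) (c : Qb) :
    ss_act N φ (algebraMap Qb (modularFunctionFieldBar N) c) =
      algebraMap Qb (modularFunctionFieldBar N) (φ c) := by
  show arithmeticGalois (modularFunctionFieldFull N) φ •
    algebraMap Qb (modularFunctionFieldBar N) c = _
  rw [SemilinearAut.smul_algebraMap, baseAut_arithmeticGalois]
  rfl

variable (N' q : ℕ) [NeZero N'] [NeZero q] [hq : Fact q.Prime] (hq2 : ¬ 2 ∣ q) (hqN' : ¬ q ∣ N')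

set_option maxHeartbeats 1000000 in
/-- **[DESC-φ], Legendre cover.** -/
theorem ss2_dp_keyBar (hcore : ss2_dp_CoreNF N' q hq2 hqN') : s35_KeyBar N' q := by
  classical
  intro A hA φ hφ
  obtain ⟨d, hd, T, hTfix, hT⟩ := hcore A hA φ hφ
  refine ⟨d, hd, fun m hqm f hf hord hfix hnA hnB => ?_⟩
  have hm : m ≠ 0 := by
    rintro rfl
    exact hqm (dvd_zero q)
  haveI : NeZero m := ⟨hm⟩
  -- a primitive `m`-th root of unity, fixed by the inertia group
  obtain ⟨ζ, hζ⟩ : ∃ ζ : Qb, IsPrimitiveRoot ζ m :=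
    HasEnoughRootsOfUnity.exists_primitiveRoot Qb m
  have hζfix : ∀ s ∈ A.inertiaSubgroupIn ℚ, s ζ = ζ := fun s hs =>
    s35d_root_fixed A q hA hqm hζ.pow_eq_one hs
  have hT'fix : ∀ t ∈ insert ζ T, ∀ s ∈ A.inertiaSubgroupIn ℚ, s t = t := by
    intro t ht s hs
    rcases Finset.mem_insert.1 ht with rfl | ht
    · exact hζfix s hs
    · exact hTfix t ht s hs
  -- the Kummer class of `f` is fixed by the inertia group
  have hfix' : ∀ s ∈ A.inertiaSubgroupIn ℚ,
      ∃ (c : Qb) (r : modularFunctionFieldBar (N' * q)), c ≠ 0 ∧ r ≠ 0 ∧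
        arithmeticGalois (modularFunctionFieldFull (N' * q)) s • f =
          algebraMap Qb (modularFunctionFieldBar (N' * q)) c * r ^ m * f := by
    intro s hs
    obtain ⟨c, r, hr, hcr⟩ := hfix s hs
    refine ⟨c, r, ?_, hr, hcr⟩
    rintro rfl
    rw [map_zero, zero_mul, zero_mul] at hcr
    have : arithmeticGalois (modularFunctionFieldFull (N' * q)) s • f ≠ 0 := by
      rwa [Ne, smul_eq_zero_iff_eq]
    exact this hcr
  -- the unramified descent
  obtain ⟨L1, hlev, hT'L1, g1, c₀, r₀, hg1, hc₀, hr₀, hfeq, hordg1⟩ :=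
    s35d_descU (N' * q) q A hA (insert ζ T) hT'fix hm hf hord hfix'
  have hTL1 : (↑T : Set Qb) ⊆ L1 := fun x hx => hT'L1 (by
    rw [Finset.coe_insert]; exact Set.mem_insert_of_mem _ hx)
  have hζL1 : ζ ∈ L1 := hT'L1 (by rw [Finset.coe_insert]; exact Set.mem_insert _ _)
  have hζ' : IsPrimitiveRoot (L1.val (⟨ζ, hζL1⟩ : L1)) m := hζ
  have hζ'' : IsPrimitiveRoot (⟨ζ, hζL1⟩ : L1) m :=
    IsPrimitiveRoot.of_map_of_injective hζ' Subtype.val_injective
  -- the restriction of `φ`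
  set σ1 : ↥L1 ≃ₐ[ℚ] ↥L1 := hlev.res φ hφ.mem_decompositionSubgroup with hσ1
  have hσ1c : ∀ x : ↥L1, algebraMap ↥L1 Qb (σ1 x) = φ (algebraMap ↥L1 Qb x) := fun x =>
    hlev.res_coe φ hφ.mem_decompositionSubgroup x
  have hcoreL := hT L1 hlev.fd hTL1 hlev.irr σ1.toRingEquiv (fun x => hσ1c x) m hqm ⟨_, hζ''⟩
  -- the norms of `G = bc g1`
  set G := dsc_bcHom ↥L1 Qb (modularFunctionFieldFull (N' * q)) g1 with hG
  have hnA' := ss2_dp_norm_of_factor N' q hqN' (heckeAlphaBar Qb N' q)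
    (fun x hx => ss2_dp_normAlong_alpha_ne_zero N' q hqN' Qb hx) hc₀ hr₀ hfeq hnA
  have hnB' := ss2_dp_norm_of_factor N' q hqN' (heckeBetaBar Qb N' q)
    (fun x hx => ss2_dp_normAlong_beta_ne_zero N' q hqN' Qb hx) hc₀ hr₀ hfeq hnB
  -- new at `L1`
  have hnew := ss2_dp_newAt ↥L1 N' q hq2 hqN' hm g1 hg1 hordg1 hnA' hnB'
  -- the core
  obtain ⟨c, r, hr, hcr⟩ := hcoreL _ hnew
  -- back to `Q̄`
  obtain ⟨c', r', hr', hcr'⟩ := ss2_dp_pullback ↥L1 (N' * q) φ σ1 hσ1c hm d (q ^ 2 * d) g1 hg1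
    hordg1 c r hcr
  -- transfer to `f`
  set Φ : modularFunctionFieldBar (N' * q) →+* modularFunctionFieldBar (N' * q) :=
    (MulSemiringAction.toRingHom _ _ (arithmeticGalois (modularFunctionFieldFull (N' * q)) φ)).comp
      (MulSemiringAction.toRingHom _ _ (arithmeticGalois (modularFunctionFieldFull (N' * q)) φ))
    with hΦ
  have hΦapp : ∀ z, Φ z = ss_act (N' * q) φ (ss_act (N' * q) φ z) := fun z => rfl
  have hCc₀ : algebraMap Qb (modularFunctionFieldBar (N' * q)) c₀ ≠ 0 := by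
    rwa [Ne, map_eq_zero]
  have htr := ss2_dp_transfer Φ (Q := q ^ 2) hCc₀ hr₀ hfeq (by rw [hΦapp]; exact hcr')
  rw [hΦapp] at htr
  have hΦC : Φ (algebraMap Qb (modularFunctionFieldBar (N' * q)) c₀) =
      algebraMap Qb (modularFunctionFieldBar (N' * q)) (φ (φ c₀)) := by
    rw [hΦapp, ss2_dp_act_const, ss2_dp_act_const]
  have hΦr₀ : Φ r₀ ≠ 0 := by rwa [Ne, map_eq_zero]
  refine ⟨φ (φ c₀) ^ d * c' / c₀ ^ (q ^ 2 * d), Φ r₀ ^ d * r' / r₀ ^ (q ^ 2 * d),
    div_ne_zero (mul_ne_zero (pow_ne_zero _ hΦr₀) hr') (pow_ne_zero _ hr₀), ?_⟩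
  rw [htr, hΦC, map_div₀, map_mul, map_pow, map_pow]

end Main

end Fermat.Agent.SS2
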