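/-
Project S35 (SS2), cell [DESC-φ] (helper22), Legendre cover (`q` odd), PRIMED form (ruling (R6),
helper4's `(φ - 1)`-fix): THE PRIMED KUMMER SEAM FROM THE PRIMED CORE OVER THE UNRAMIFIED NUMBER
FIELDS.

  `ss2_dp_keyBar1 : s35_CoreNF1 N' q hq2 hqN' → s35_KeyBar1 N' q`     (= (D-L) of S35/Final.lean).

Proof: as `ss2_dp_keyBar`, with `(f, g1)` replaced by `(φ f / f, φ1 g1 / g1)` in the pull-back and
in the transfer.
Prefix `ss2_dp_`.
-/
import Mathlib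
import Fermat.Agent.SS2.DescPhi.KeyBarLeg
import Fermat.Agent.S35.Seams1
import Fermat.Agent.S35.Seams2

set_option autoImplicit false
set_option linter.unusedSectionVars false
set_option linter.unusedVariables false
set_option linter.style.haveILetI false

noncomputable section

namespace Fermat.Agent.SS2

open ModularCurve AlgebraicCurve Module Fermat.Agent.JT3 Fermat.Agent.S24 Fermat.Agent.SS
  Fermat.Agent.S35 Fermat.Agent.FF

local notation "GQ" => (AlgebraicClosure ℚ ≃ₐ[ℚ] AlgebraicClosure ℚ)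
local notation "Qb" => AlgebraicClosure ℚ

section Ord

variable {K F : Type*} [Field K] [Field F] [Algebra K F]

/-- if all orders of `g` are divisible by `m`, so are all orders of `Φ g / g`. -/
theorem ss2_dp_dvd_ord_smul_div (Φ : SemilinearAut K F) (m : ℤ) {g : F} (hg : g ≠ 0)
    (h : ∀ v : Place K F, m ∣ v.ord g) (w : Place K F) : m ∣ w.ord (Φ • g / g) := by
  have hΦg : Φ • g ≠ 0 := by rwa [Ne, smul_eq_zero_iff_eq]
  rw [div_eq_mul_inv, w.ord_mul hΦg (inv_ne_zero hg), w.ord_inv, ssd_ord_smul]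
  exact dvd_add (h _) ((dvd_neg).2 (h _))

end Ord

/-- the primed factorisation: `f = c₀ r₀^m G` gives `Φ f / f = (Φ c₀ / c₀) (Φ r₀ / r₀)^m (Φ G / G)`. -/
theorem ss2_dp_factor_div {F : Type*} [Field F] (Φ : F →+* F) {f G c₀ r₀ : F} {m : ℕ}
    (hf : f = c₀ * r₀ ^ m * G) :
    Φ f / f = (Φ c₀ / c₀) * (Φ r₀ / r₀) ^ m * (Φ G / G) := by
  rw [hf, map_mul, map_mul, map_pow, div_pow]
  rw [mul_div_mul_comm, mul_div_mul_comm]

section Main

variable (N' q : ℕ) [NeZero N'] [NeZero q] [hq : Fact q.Prime] (hq2 : ¬ 2 ∣ q) (hqN' : ¬ q ∣ N')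

set_option maxHeartbeats 1000000 in
set_option synthInstance.maxHeartbeats 400000 in
/-- **[DESC-φ], Legendre cover, primed** = (D-L). -/
theorem ss2_dp_keyBar1 (hcore : s35_CoreNF1 N' q hq2 hqN') : s35_KeyBar1 N' q := by
  classical
  intro A hA φ hφ
  obtain ⟨d, hd, T, hTfix, hT⟩ := hcore A hA φ hφ
  refine ⟨d, hd, fun m hqm f hf hord hfix hnA hnB => ?_⟩
  have hm : m ≠ 0 := by
    rintro rfl
    exact hqm (dvd_zero q)
  haveI : NeZero m := ⟨hm⟩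
  -- a primitive `m`-th root of unity, fixed by the inertia group
  obtain ⟨ζ, hζ⟩ : ∃ ζ : Qb, IsPrimitiveRoot ζ m :=
    HasEnoughRootsOfUnity.exists_primitiveRoot Qb m
  have hζfix : ∀ s ∈ A.inertiaSubgroupIn ℚ, s ζ = ζ := fun s hs =>
    s35d_root_fixed A q hA hqm hζ.pow_eq_one hs
  have hT'fix : ∀ t ∈ insert ζ T, ∀ s ∈ A.inertiaSubgroupIn ℚ, s t = t := by
    intro t ht s hs
    rcases Finset.mem_insert.1 ht with rfl | ht
    · exact hζfix s hs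
    · exact hTfix t ht s hs
  -- the Kummer class of `f` is fixed by the inertia group
  have hfix' : ∀ s ∈ A.inertiaSubgroupIn ℚ,
      ∃ (c : Qb) (r : modularFunctionFieldBar (N' * q)), c ≠ 0 ∧ r ≠ 0 ∧
        arithmeticGalois (modularFunctionFieldFull (N' * q)) s • f =
          algebraMap Qb (modularFunctionFieldBar (N' * q)) c * r ^ m * f := by
    intro s hs
    obtain ⟨c, r, hr, hcr⟩ := hfix s hs
    refine ⟨c, r, ?_, hr, hcr⟩
    rintro rfl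
    rw [map_zero, zero_mul, zero_mul] at hcr
    have : arithmeticGalois (modularFunctionFieldFull (N' * q)) s • f ≠ 0 := by
      rwa [Ne, smul_eq_zero_iff_eq]
    exact this hcr
  -- the unramified descent
  obtain ⟨L1, hlev, hT'L1, g1, c₀, r₀, hg1, hc₀, hr₀, hfeq, hordg1⟩ :=
    s35d_descU (N' * q) q A hA (insert ζ T) hT'fix hm hf hord hfix'
  have hTL1 : (↑T : Set Qb) ⊆ L1 := fun x hx => hT'L1 (by
    rw [Finset.coe_insert]; exact Set.mem_insert_of_mem _ hx)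
  have hζL1 : ζ ∈ L1 := hT'L1 (by rw [Finset.coe_insert]; exact Set.mem_insert _ _)
  have hζ' : IsPrimitiveRoot (L1.val (⟨ζ, hζL1⟩ : L1)) m := hζ
  have hζ'' : IsPrimitiveRoot (⟨ζ, hζL1⟩ : L1) m :=
    IsPrimitiveRoot.of_map_of_injective hζ' Subtype.val_injective
  -- the restriction of `φ`
  set σ1 : ↥L1 ≃ₐ[ℚ] ↥L1 := hlev.res φ hφ.mem_decompositionSubgroup with hσ1
  have hσ1c : ∀ x : ↥L1, algebraMap ↥L1 Qb (σ1 x) = φ (algebraMap ↥L1 Qb x) := fun x =>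
    hlev.res_coe φ hφ.mem_decompositionSubgroup x
  have hcoreL := hT L1 hlev.fd hTL1 (fun x hx s hs => hlev.fixed hx hs) hlev.irr σ1.toRingEquiv
    (fun x => hσ1c x) m hqm ⟨_, hζ''⟩
  -- the norms of `G = bc g1`
  set G := dsc_bcHom ↥L1 Qb (modularFunctionFieldFull (N' * q)) g1 with hG
  have hnA' := ss2_dp_norm_of_factor N' q hqN' (heckeAlphaBar Qb N' q)
    (fun x hx => ss2_dp_normAlong_alpha_ne_zero N' q hqN' Qb hx) hc₀ hr₀ hfeq hnA
  have hnB' := ss2_dp_norm_of_factor N' q hqN' (heckeBetaBar Qb N' q)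
    (fun x hx => ss2_dp_normAlong_beta_ne_zero N' q hqN' Qb hx) hc₀ hr₀ hfeq hnB
  -- new at `L1`
  have hnew := ss2_dp_newAt ↥L1 N' q hq2 hqN' hm g1 hg1 hordg1 hnA' hnB'
  -- the core
  obtain ⟨c, r, hr, hcr⟩ := hcoreL _ hnew
  -- the function `G1 = φ1 g1 / g1`
  set Φ1 := arithmeticGalois (modularFunctionFieldFull (N' * q)) σ1 with hΦ1
  have hΦ1g : Φ1 • g1 ≠ 0 := by rwa [Ne, smul_eq_zero_iff_eq]
  have hG10 : Φ1 • g1 / g1 ≠ 0 := div_ne_zero hΦ1g hg1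
  have hιG1 : ss2_dp_iota ↥L1 (N' * q) (Φ1 • g1 / g1) =
      ssm_sg_aut (N' * q) σ1.toRingEquiv (ss2_dp_iota ↥L1 (N' * q) g1) /
        ss2_dp_iota ↥L1 (N' * q) g1 := by
    rw [map_div₀, ss2_dp_iota_smul]
  rw [← hιG1] at hcr
  -- back to `Q̄`
  obtain ⟨c', r', hr', hcr'⟩ := ss2_dp_pullback ↥L1 (N' * q) φ σ1 hσ1c hm d (q ^ 2 * d)
    (Φ1 • g1 / g1) hG10 (fun w => ss2_dp_dvd_ord_smul_div Φ1 (m : ℤ) hg1 hordg1 w) c r hcr
  have hbcG1 : dsc_bcHom ↥L1 Qb (modularFunctionFieldFull (N' * q)) (Φ1 • g1 / g1) =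
      ss_act (N' * q) φ G / G := by
    rw [map_div₀, ss2_dp_bc_smul ↥L1 (N' * q) φ σ1 hσ1c]
  rw [hbcG1] at hcr'
  -- transfer to `F = φ f / f`
  set Φ : modularFunctionFieldBar (N' * q) →+* modularFunctionFieldBar (N' * q) :=
    MulSemiringAction.toRingHom _ _ (arithmeticGalois (modularFunctionFieldFull (N' * q)) φ)
    with hΦ
  have hΦapp : ∀ z, Φ z = ss_act (N' * q) φ z := fun z => rfl
  have hCc₀ : algebraMap Qb (modularFunctionFieldBar (N' * q)) c₀ ≠ 0 := by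
    rwa [Ne, map_eq_zero]
  have hΦC : Φ (algebraMap Qb (modularFunctionFieldBar (N' * q)) c₀) =
      algebraMap Qb (modularFunctionFieldBar (N' * q)) (φ c₀) := by
    rw [hΦapp, ss2_dp_act_const]
  have hΦr₀ : Φ r₀ ≠ 0 := by rwa [Ne, map_eq_zero]
  have hfac := ss2_dp_factor_div Φ hfeq
  rw [hΦC, ← map_div₀, hΦapp, hΦapp, hΦapp] at hfac
  have hφc₀ : φ c₀ / c₀ ≠ 0 := div_ne_zero ((map_ne_zero φ).2 hc₀) hc₀
  have hCφc₀ : algebraMap Qb (modularFunctionFieldBar (N' * q)) (φ c₀ / c₀) ≠ 0 := by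
    rwa [Ne, map_eq_zero]
  have hφr₀ : ss_act (N' * q) φ r₀ / r₀ ≠ 0 := div_ne_zero hΦr₀ hr₀
  have htr := ss2_dp_transfer (Φ.comp Φ) (Q := q ^ 2) hCφc₀ hφr₀ hfac
    (by
      show ss_act (N' * q) φ (ss_act (N' * q) φ (ss_act (N' * q) φ G / G)) ^ d = _
      exact hcr')
  have hΦΦC : (Φ.comp Φ) (algebraMap Qb (modularFunctionFieldBar (N' * q)) (φ c₀ / c₀)) =
      algebraMap Qb (modularFunctionFieldBar (N' * q)) (φ (φ (φ c₀ / c₀))) := by
    show ss_act (N' * q) φ (ss_act (N' * q) φ _) = _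
    rw [ss2_dp_act_const, ss2_dp_act_const]
  have hΦΦr : (Φ.comp Φ) (ss_act (N' * q) φ r₀ / r₀) ≠ 0 := by rwa [Ne, map_eq_zero]
  refine ⟨φ (φ (φ c₀ / c₀)) ^ d * c' / (φ c₀ / c₀) ^ (q ^ 2 * d),
    (Φ.comp Φ) (ss_act (N' * q) φ r₀ / r₀) ^ d * r' / (ss_act (N' * q) φ r₀ / r₀) ^ (q ^ 2 * d),
    div_ne_zero (mul_ne_zero (pow_ne_zero _ hΦΦr) hr') (pow_ne_zero _ hφr₀), ?_⟩
  have htr' : ss_act (N' * q) φ (ss_act (N' * q) φ (ss_act (N' * q) φ f / f)) ^ d = _ := htr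
  rw [htr', hΦΦC]
  simp only [map_div₀, map_mul, map_pow]

end Main

end Fermat.Agent.SS2
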