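/-
Project S35 (SS2), cell [DESC-φ] (helper22), part (N2), HESSE cover: twin of `NormCover.lean` for
`E = hs_E L h3 (N' q) ⊇ E' = hs_E L h3 N'`, `ι₃ = (X ↦ X³)`.

* `ss2_dp_W_phik`          : `W_M ∘ φ_k = φ_k ∘ W_{M₀}` on `F_{M₀ q}(L)` for `k M₀ ∣ M`
                             (`φ_k = (X ↦ X^k)`; generalises `ssm_al_W_phi`, `k = 2`);
* `ss2_dp_iotaH L h3 N`    : `ι₃ : F_N(L) → hs_E L h3 N`;
* `ss2_dp_normEH_iota`     : `s35h_normE (ι₃ g) = ι₃ (Norm_α g)`;
* `ss2_dp_WEH_iota`        : `W_E (ι₃ g) = ι₃ (W_F g)`;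
* `ss2_dp_normEH_W_iota`   : `s35h_normE (W_E (ι₃ g)) = ι₃ (Norm_β g)`.
Prefix `ss2_dp_`.
-/
import Mathlib
import Fermat.Agent.SS2.DescPhi.NormCover
import Fermat.Agent.S35.SeamsHes
import Fermat.Agent.SS.Model.ALEHesse

set_option autoImplicit false
set_option linter.unusedSectionVars false
set_option linter.unusedVariables false
set_option linter.style.haveILetI false

noncomputable section

namespace Fermat.Agent.SS2

open ModularCurve AlgebraicCurve Module Fermat.Agent.JT3 Fermat.Agent.S24 Fermat.Agent.SS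
  Fermat.Agent.S35 Fermat.Agent.S28

local notation "Qb" => AlgebraicClosure ℚ

/-! ### `W ∘ φ_k = φ_k ∘ W` -/

section Phik

variable (L : Type*) [Field L] [CharZero L] [Algebra L (AlgebraicClosure ℚ)] (k : ℕ) [NeZero k]
  (M₀ M q : ℕ) [NeZero M₀] [NeZero M] [NeZero q] (hq : q.Prime) (hqM₀ : ¬ q ∣ M₀) (hqM : ¬ q ∣ M)

theorem ss2_dp_phik_mem_base (hk : k * M₀ ∣ M) {x : LaurentSeries L} (hx : x ∈ lg_F L M₀) :
    qExpand L k x ∈ lg_F L M := by
  have h1 : qExpand L k x ∈ lg_F L (M₀ * k) := full_degeneracyC_map_le L M₀ k ⟨x, hx, rfl⟩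
  exact full_degeneracyC_le L (by rwa [mul_comm]) h1

theorem ss2_dp_phik_mem (hk : k * M₀ ∣ M) {x : LaurentSeries L} (hx : x ∈ lg_F L (M₀ * q)) :
    qExpand L k x ∈ lg_F L (M * q) := by
  have h1 : qExpand L k x ∈ lg_F L (M₀ * q * k) :=
    full_degeneracyC_map_le L (M₀ * q) k ⟨x, hx, rfl⟩
  refine full_degeneracyC_le L ?_ h1
  obtain ⟨c, rfl⟩ := hk
  exact ⟨c, by ring⟩

/-- `φ_k : F_{M₀ q}(L) → F_{M q}(L)` for `k M₀ ∣ M`. -/
def ss2_dp_phikHom (hk : k * M₀ ∣ M) : lg_F L (M₀ * q) →ₐ[L] lg_F L (M * q) where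
  toFun x := ⟨qExpand L k x, ss2_dp_phik_mem L k M₀ M q hk x.2⟩
  map_one' := Subtype.ext (map_one _)
  map_mul' _ _ := Subtype.ext (map_mul _ _ _)
  map_zero' := Subtype.ext (map_zero _)
  map_add' _ _ := Subtype.ext (map_add _ _ _)
  commutes' r := Subtype.ext (bd_qExpand_algebraMap k r)

/-- **`W_M ∘ φ_k = φ_k ∘ W_{M₀}`** on `F_{M₀ q}(L)` (`k M₀ ∣ M`). -/
theorem ss2_dp_W_phik (hk : k * M₀ ∣ M) (x : lg_F L (M₀ * q)) :
    ((ssm_al_W L M q hq hqM (ss2_dp_phikHom L k M₀ M q hk x) : lg_F L (M * q)) :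
        LaurentSeries L) =
      qExpand L k ((ssm_al_W L M₀ q hq hqM₀ x : lg_F L (M₀ * q)) : LaurentSeries L) := by
  have key : ((lg_F L (M * q)).val.comp
        ((ssm_al_W L M q hq hqM : lg_F L (M * q) →ₐ[L] lg_F L (M * q)).comp
          (ss2_dp_phikHom L k M₀ M q hk))) =
      (qExpandAlgHomC L k).comp ((lg_F L (M₀ * q)).val.comp
        (ssm_al_W L M₀ q hq hqM₀ : lg_F L (M₀ * q) →ₐ[L] lg_F L (M₀ * q))) := by
    refine IntermediateField.algHom_ext_of_eq_adjoin L (S := lg_F L (M₀ * q))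
      (s := divisorExpansionsC L (M₀ * q)) rfl ?_
    rintro _ ⟨d, hd, hdN, rfl⟩
    have := hd
    rcases nls_dvd_cases hq hqM₀ hdN with hdM | ⟨e, rfl, heM⟩
    · have hm : qExpand L d (jqModC L) ∈ lg_F L M₀ := jqModCd_mem_full L M₀ hdM
      have hφ := ss2_dp_phik_mem_base L k M₀ M hk hm
      have h1 := ssm_al_coe_W_of_mem L M₀ q hq hqM₀ hm (jqModCd_mem_full L (M₀ * q) hdN)
      have h3 := ssm_al_coe_W_of_mem L M q hq hqM hφ
        (ss2_dp_phik_mem L k M₀ M q hk (jqModCd_mem_full L (M₀ * q) hdN))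
      change ((ssm_al_W L M q hq hqM ⟨qExpand L k (qExpand L d (jqModC L)), _⟩ :
          lg_F L (M * q)) : LaurentSeries L) =
        qExpand L k ((ssm_al_W L M₀ q hq hqM₀ ⟨qExpand L d (jqModC L), _⟩ :
          lg_F L (M₀ * q)) : LaurentSeries L)
      rw [h1, h3, ssm_al_qExpand_comm L q k]
    · have he0 : NeZero e := ⟨fun h0 => by subst h0; exact NeZero.ne (q * 0) (by simp)⟩
      have hm : qExpand L e (jqModC L) ∈ lg_F L M₀ := jqModCd_mem_full L M₀ heM
      have hφ := ss2_dp_phik_mem_base L k M₀ M hk hm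
      have e1 : qExpand L (q * e) (jqModC L) = qExpand L q (qExpand L e (jqModC L)) := by
        rw [qExpand_qExpand]
      have e3 : qExpand L k (qExpand L (q * e) (jqModC L)) =
          qExpand L q (qExpand L k (qExpand L e (jqModC L))) := by
        rw [e1, ssm_al_qExpand_comm L k q]
      have hmem : qExpand L q (qExpand L e (jqModC L)) ∈ lg_F L (M₀ * q) :=
        ssm_al_expand_mem L M₀ q hm
      have h1 := ssm_al_coe_W_expand_of_mem L M₀ q hq hqM₀ hm hmem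
      have h3 := ssm_al_coe_W_expand_of_mem L M q hq hqM hφ (ssm_al_expand_mem L M q hφ)
      have e2 : (⟨qExpand L (q * e) (jqModC L), jqModCd_mem_full L (M₀ * q) hdN⟩ :
          lg_F L (M₀ * q)) = ⟨qExpand L q (qExpand L e (jqModC L)), hmem⟩ := Subtype.ext e1
      have e4 : ss2_dp_phikHom L k M₀ M q hk
          ⟨qExpand L (q * e) (jqModC L), jqModCd_mem_full L (M₀ * q) hdN⟩ =
          ⟨qExpand L q (qExpand L k (qExpand L e (jqModC L))), ssm_al_expand_mem L M q hφ⟩ :=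
        Subtype.ext e3
      change ((ssm_al_W L M q hq hqM (ss2_dp_phikHom L k M₀ M q hk
          ⟨qExpand L (q * e) (jqModC L), jqModCd_mem_full L (M₀ * q) hdN⟩) :
            lg_F L (M * q)) : LaurentSeries L) =
        qExpand L k ((ssm_al_W L M₀ q hq hqM₀
          ⟨qExpand L (q * e) (jqModC L), jqModCd_mem_full L (M₀ * q) hdN⟩ :
            lg_F L (M₀ * q)) : LaurentSeries L)
      rw [e4, e2, h1, h3]
  exact DFunLike.congr_fun key x

end Phik

/-! ### the Hesse cover -/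

section IotaH

variable (L : Type*) [Field L] [Algebra ℚ L] (h3 : (3 : L) ≠ 0) (N : ℕ) [NeZero N]

/-- `ι₃ = (X ↦ X³) : F_N(L) → hs_E L h3 N`. -/
def ss2_dp_iotaH :
    laurentBaseChange L (modularFunctionFieldFull N) →ₐ[L] hs_E L h3 N :=
  ((qExpandAlgHomC L 3).comp
    (laurentBaseChange L (modularFunctionFieldFull N)).val).codRestrict
    (hs_E L h3 N).toSubalgebra (fun x => hs_phi_mem_E L h3 N (ss2_dp_mem_lgF L N x.2))

theorem ss2_dp_iotaH_coe (x : laurentBaseChange L (modularFunctionFieldFull N)) :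
    ((ss2_dp_iotaH L h3 N x : hs_E L h3 N) : LaurentSeries L) =
      qExpand L 3 (x : LaurentSeries L) := rfl

end IotaH

section CoverH

variable (L : Type*) [Field L] [Algebra ℚ L] [CharZero L] [Algebra L Qb] (h3 : (3 : L) ≠ 0)
  (N' q : ℕ) [NeZero N'] [NeZero q] [hq : Fact q.Prime] (hq3 : ¬ 3 ∣ q) (hqN' : ¬ q ∣ N')

theorem ss2_dp_normEH_eq (y : hs_E L h3 (N' * q)) :
    s35h_normE h3 N' q y =
      s35pe_normAlong (IntermediateField.inclusion (ssm_alh_E_le L h3 (ssm_fh_hF9 h3) N' q)) y :=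
  rfl

/-- a subfield of `E = hs_E L h3 (N' q)` containing `E'` and `ι₃ F_{N' q}` is everything. -/
theorem ss2_dp_coverH_gen (S : Subfield (hs_E L h3 (N' * q)))
    (h1 : ∀ x : hs_E L h3 N',
      IntermediateField.inclusion (ssm_alh_E_le L h3 (ssm_fh_hF9 h3) N' q) x ∈ S)
    (h2 : ∀ y : laurentBaseChange L (modularFunctionFieldFull (N' * q)),
      ss2_dp_iotaH L h3 (N' * q) y ∈ S) : S = ⊤ := by
  refine s35pe_subfield_eq_top (IntermediateField.sup_def _ _) S (fun c => ?_) fun x hx h => ?_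
  · have := h1 (algebraMap L _ c)
    rwa [AlgHom.commutes] at this
  · rcases hx with hx | hx
    · obtain ⟨y, hy, rfl⟩ := hx
      have hy' : y ∈ laurentBaseChange L (modularFunctionFieldFull (N' * q)) :=
        ss2_dp_mem_lbc L (N' * q) hy
      have := h2 ⟨y, hy'⟩
      have e : ss2_dp_iotaH L h3 (N' * q) ⟨y, hy'⟩ = ⟨hs_phi L y, h⟩ := Subtype.ext rfl
      rwa [e] at this
    · have hx' : x ∈ hs_E L h3 N' := hs_K_le_E L h3 N' hx
      have := h1 ⟨x, hx'⟩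
      have e : IntermediateField.inclusion (ssm_alh_E_le L h3 (ssm_fh_hF9 h3) N' q) ⟨x, hx'⟩ =
          ⟨x, h⟩ := Subtype.ext rfl
      rwa [e] at this

theorem ss2_dp_iotaH_alpha (x : laurentBaseChange L (modularFunctionFieldFull N')) :
    ss2_dp_iotaH L h3 (N' * q) (heckeAlphaBar L N' q x) =
      IntermediateField.inclusion (ssm_alh_E_le L h3 (ssm_fh_hF9 h3) N' q)
        (ss2_dp_iotaH L h3 N' x) := by
  apply Subtype.ext
  rw [ss2_dp_iotaH_coe, coe_heckeAlphaBar, IntermediateField.coe_inclusion, ss2_dp_iotaH_coe]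

include hq3 hqN' in
theorem ss2_dp_finrankAlong_EH :
    finrankAlong L (IntermediateField.inclusion (ssm_alh_E_le L h3 (ssm_fh_hF9 h3) N' q)) =
      q + 1 := by
  rw [s35pe_finrankAlong_inclusion,
    ssm_alh_relfinrank_E L h3 (ssm_fh_hF9 h3) N' q hq.out hq3 hqN']

include hq3 hqN' in
/-- **(N2), inclusion, Hesse**, `normAlong` form. -/
theorem ss2_dp_normAlong_iotaH (g : laurentBaseChange L (modularFunctionFieldFull (N' * q))) :
    s35pe_normAlong (IntermediateField.inclusion (ssm_alh_E_le L h3 (ssm_fh_hF9 h3) N' q))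
        ((ss2_dp_iotaH L h3 (N' * q)).toRingHom g) =
      (ss2_dp_iotaH L h3 N').toRingHom (s35pe_normAlong (heckeAlphaBar L N' q) g) := by
  have hpos : 0 < finrankAlong L (heckeAlphaBar L N' q) := by
    rw [ss2_dp_finrankAlong_alpha L N' q hq.out hqN']; exact Nat.succ_pos q
  have hdeg : finrankAlong L
      (IntermediateField.inclusion (ssm_alh_E_le L h3 (ssm_fh_hF9 h3) N' q)) =
      finrankAlong L (heckeAlphaBar L N' q) := by
    rw [ss2_dp_finrankAlong_alpha L N' q hq.out hqN', ss2_dp_finrankAlong_EH L h3 N' q hq3 hqN']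
  exact s35pe_normAlong_baseChange (heckeAlphaBar L N' q)
    (IntermediateField.inclusion (ssm_alh_E_le L h3 (ssm_fh_hF9 h3) N' q))
    (ss2_dp_iotaH L h3 N').toRingHom
    (ss2_dp_iotaH L h3 (N' * q)).toRingHom (fun x => ss2_dp_iotaH_alpha L h3 N' q x) hpos hdeg
    (fun S h1 h2 => ss2_dp_coverH_gen L h3 N' q S h1 h2) g

include hq3 hqN' in
/-- **(N2), inclusion, Hesse**: `Norm_{E/E'} (ι₃ g) = ι₃ (Norm_α g)`. -/
theorem ss2_dp_normEH_iota (g : laurentBaseChange L (modularFunctionFieldFull (N' * q))) :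
    s35h_normE h3 N' q (ss2_dp_iotaH L h3 (N' * q) g) =
      ss2_dp_iotaH L h3 N' (s35pe_normAlong (heckeAlphaBar L N' q) g) :=
  ss2_dp_normAlong_iotaH L h3 N' q hq3 hqN' g

/-- `W_E (x(X³)) = (W_F x)(X³)` for `x ∈ F_{N' q}(L)`. -/
theorem ss2_dp_coe_WEH_phi (x : lg_F L (N' * q))
    (h : qExpand L 3 (x : LaurentSeries L) ∈ hs_E L h3 (N' * q)) :
    ((ssm_alh_WE L h3 (ssm_fh_hF9 h3) N' q hq.out hq3 hqN'
        ⟨qExpand L 3 (x : LaurentSeries L), h⟩ : hs_E L h3 (N' * q)) : LaurentSeries L) =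
      qExpand L 3 ((ssm_al_W L N' q hq.out hqN' x : lg_F L (N' * q)) : LaurentSeries L) := by
  rw [ssm_alh_coe_WE]
  exact ss2_dp_W_phik L 3 N' (ssm_alh_level N') q hq.out hqN' _
    (ssm_alh_three_mul_dvd_level N') x

/-- **`W_E (ι₃ g) = ι₃ (W_F g)`.** -/
theorem ss2_dp_WEH_iota (g : laurentBaseChange L (modularFunctionFieldFull (N' * q))) :
    ssm_fh_W h3 N' q hq3 hqN' (ss2_dp_iotaH L h3 (N' * q) g) =
      ss2_dp_iotaH L h3 (N' * q) (ss2_dp_WF L N' q hqN' g) := by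
  apply Subtype.ext
  rw [ss2_dp_iotaH_coe, ss2_dp_WF_coe]
  exact ss2_dp_coe_WEH_phi L h3 N' q hq3 hqN' ⟨g, ss2_dp_mem_lgF L (N' * q) g.2⟩ _

/-- **(N2), Atkin–Lehner, Hesse**: `Norm_{E/E'} (W_E (ι₃ g)) = ι₃ (Norm_β g)`. -/
theorem ss2_dp_normEH_W_iota (g : laurentBaseChange L (modularFunctionFieldFull (N' * q))) :
    s35h_normE h3 N' q (ssm_fh_W h3 N' q hq3 hqN' (ss2_dp_iotaH L h3 (N' * q) g)) =
      ss2_dp_iotaH L h3 N' (s35pe_normAlong (heckeBetaBar L N' q) g) := by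
  rw [ss2_dp_WEH_iota, ss2_dp_normEH_iota L h3 N' q hq3 hqN', ss2_dp_norm_alpha_WF]

end CoverH

end Fermat.Agent.SS2
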